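import Fermat.Agent.Lib.Mazur2.LocP.Ker
import Fermat.Agent.Lib.S13.AtPGlobal

/-!
# ISOG (P4), part 4: the decomposition group preserves the valuation and the kernel of reduction

* `mz2l_ord_decomp` : for `σ` in the decomposition group of `A` and any `ℚ`-valued valuation `v`
  attached to `A` (`QValFor A q v`), `ord (σ x) = ord x`.
* `mz2lInKer_smul` : the kernel of reduction is stable under the decomposition group.
-/

set_option autoImplicit false
set_option linter.unusedSectionVars false
set_option linter.unusedVariables false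

open WeierstrassCurve WeierstrassCurve.Affine WeierstrassCurve.Affine.Point

namespace Fermat.Agent.Mazur2

open Fermat.Agent.S05Lib Fermat.Agent.S13Lib

local notation "Qb" => AlgebraicClosure ℚ

variable {A : ValuationSubring Qb} {q : ℕ} {v : QVal Qb}

/-- an element of valuation one has order zero -/
theorem mz2l_ord_eq_zero_of_valuation (hv : QValFor A q v) {u : Qb} (hu : A.valuation u = 1) :
    v.ord u = 0 := by
  have hu0 : u ≠ 0 := by
    intro h0
    rw [h0, _root_.map_zero] at hu
    exact zero_ne_one hu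
  have h1 : u ∈ A := (A.valuation_le_one_iff u).mp hu.le
  have h2 : u⁻¹ ∈ A := (A.valuation_le_one_iff _).mp (by rw [map_inv₀, hu, inv_one])
  have h3 := ((hv.mem_iff u).mp h1).resolve_left hu0
  have h4 := ((hv.mem_iff u⁻¹).mp h2).resolve_left (inv_ne_zero hu0)
  rw [v.ord_inv hu0] at h4
  linarith

/-- **the decomposition group preserves the valuation** -/
theorem mz2l_ord_decomp (hv : QValFor A q v) (hq : q.Prime) (hA : A.LiesOverPrime q)
    {σ : Qb ≃ₐ[ℚ] Qb} (hσ : σ ∈ A.decompositionSubgroup ℚ) (x : Qb) :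
    v.ord (σ x) = v.ord x := by
  by_cases hx : x = 0
  · subst hx; rw [_root_.map_zero]
  have hσx : σ x ≠ 0 := (map_ne_zero_iff σ σ.injective).mpr hx
  obtain ⟨hπ0, -⟩ := qv_pi_pos A hq hA
  obtain ⟨m, hm, s, hs⟩ := qv_exists_pow_eq A hq hA (qv_isAlgebraic_int_qbar x) hx
  have hq0 : ((q : ℕ) : Qb) ≠ 0 := by exact_mod_cast hq.ne_zero
  set u : Qb := x ^ m / ((q : ℕ) : Qb) ^ s with hu
  have hwu : A.valuation u = 1 := by
    rw [hu, map_div₀, map_pow, map_zpow₀, hs]
    exact div_self (zpow_ne_zero _ hπ0.ne')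
  have hσu := qv_decomp_valuation_eq_one A hσ hwu
  have hσu' : σ u = (σ x) ^ m / ((q : ℕ) : Qb) ^ s := by
    rw [hu, map_div₀, map_pow, map_zpow₀, map_natCast]
  have e1 := mz2l_ord_eq_zero_of_valuation hv hwu
  have e2 := mz2l_ord_eq_zero_of_valuation hv hσu
  rw [hσu', v.ord_div (pow_ne_zero _ hσx) (zpow_ne_zero _ hq0), v.ord_pow hσx] at e2
  rw [hu, v.ord_div (pow_ne_zero _ hx) (zpow_ne_zero _ hq0), v.ord_pow hx] at e1
  have hm' : (0 : ℚ) < m := by exact_mod_cast hm
  have : (m : ℚ) * v.ord (σ x) = m * v.ord x := by linarith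
  exact mul_left_cancel₀ hm'.ne' this

variable {L : WeierstrassCurve ℚ}

/-- **the kernel of reduction is stable under the decomposition group** -/
theorem mz2lInKer_smul (hv : QValFor A q v) (hq : q.Prime) (hA : A.LiesOverPrime q)
    {σ : Qb ≃ₐ[ℚ] Qb} (hσ : σ ∈ A.decompositionSubgroup ℚ) {T : (L.toAffine⁄Qb).Point}
    (hT : Mz2lInKer v T) : Mz2lInKer v (σ • T) := by
  rw [mz2lInKer_iff] at hT ⊢
  rcases hT with h | h
  · left
    rw [h]
    rfl
  · right
    rw [xc_smul]
    exact ⟨(map_ne_zero_iff σ σ.injective).mpr h.1, by rw [mz2l_ord_decomp hv hq hA hσ]; exact h.2⟩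

end Fermat.Agent.Mazur2
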