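import Fermat.Agent.Lib.S13.DivPoly.Roots

/-!
# ISOG (P4), part 1: the `x`-coordinate of `n • P` through Mathlib's `Φ_n`, `ΨSq_n` (n odd)

On `y² = x³ + a x² + b x`, for odd `n` and an affine point `P = (x, y)` with `n • P = (x', y')`:
`x' · ΨSq_n(x) = Φ_n(x)`.  Integrality of the values of `Φ_n`, `ΨSq_n` at integral arguments, the
product formula for the values of `ΨSq_p`, and the root lemma for monic polynomials (a monic
polynomial over an algebraically closed field with a non-integral value at an integral argument has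
a root of negative order).
-/

set_option autoImplicit false
set_option linter.unusedSectionVars false

open WeierstrassCurve WeierstrassCurve.Affine Polynomial

namespace Fermat.Agent.Mazur2

open Fermat.Agent.S05Lib Fermat.Agent.S13Lib

section divx

variable {K : Type*} [Field K] [DecidableEq K] {W : WeierstrassCurve K} {a b : K}

/-- for odd `n`: `ΨSq_n = (preΨ'_n)²` -/
theorem mz2l_ΨSq_odd (W : WeierstrassCurve K) {n : ℕ} (hn : Odd n) :
    W.ΨSq (n : ℤ) = W.preΨ' n ^ 2 := by
  have hne : ¬ Even n := Nat.not_even_iff_odd.mpr hn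
  have h := W.ΨSq_ofNat n
  rw [if_neg hne, mul_one] at h
  exact_mod_cast h

/-- **`x(n • P) · ΨSq_n(x(P)) = Φ_n(x(P))`** for odd `n`. -/
theorem mz2l_x_nsmul (hW : IsLeg W a b) (h2 : (2 : K) ≠ 0) {x y : K}
    (h : W.toAffine.Nonsingular x y) {n : ℕ} (hn : Odd n) {x' y' : K}
    {h' : W.toAffine.Nonsingular x' y'} (e : n • Point.some x y h = Point.some x' y' h') :
    x' * (W.ΨSq (n : ℤ)).eval x = (W.Φ (n : ℤ)).eval x := by
  have heq := hW.eq_of_nonsingular h
  have key := x_nsmul_psiVal hW h2 h n e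
  have hoddZ : Odd (n : ℤ) := by exact_mod_cast hn
  have hev1 : Even ((n : ℤ) + 1) := hoddZ.add_one
  have hev2 : Even ((n : ℤ) - 1) := hoddZ.sub_odd odd_one
  have hne : ¬ Even (n : ℤ) := Int.not_even_iff_odd.mpr hoddZ
  rw [isLeg_psiVal_odd hW heq hn, isLeg_psiVal_eq_preΨ hW heq, if_pos hev1,
    isLeg_psiVal_eq_preΨ hW heq, if_pos hev2] at key
  have hΦ : W.Φ (n : ℤ) = X * W.ΨSq (n : ℤ) -
      W.preΨ ((n : ℤ) + 1) * W.preΨ ((n : ℤ) - 1) * W.Ψ₂Sq := by
    rw [WeierstrassCurve.Φ, if_neg hne]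
  rw [hΦ, mz2l_ΨSq_odd W hn]
  simp only [eval_sub, eval_mul, eval_X, eval_pow]
  rw [isLeg_Ψ₂Sq_eval hW]
  linear_combination (-1 : K) * key -
    4 * (W.preΨ ((n : ℤ) + 1)).eval x * (W.preΨ ((n : ℤ) - 1)).eval x * heq

/-- `n • P = 0 ↔ ΨSq_n(x(P)) = 0` for odd `n` -/
theorem mz2l_nsmul_eq_zero_iff (hW : IsLeg W a b) (h2 : (2 : K) ≠ 0) {x y : K}
    (h : W.toAffine.Nonsingular x y) {n : ℕ} (hn : Odd n) :
    n • Point.some x y h = 0 ↔ (W.ΨSq (n : ℤ)).eval x = 0 := by
  rw [nsmul_eq_zero_iff_preΨ' hW h2 h hn, mz2l_ΨSq_odd W hn, eval_pow]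
  exact (pow_eq_zero_iff two_ne_zero).symm

end divx

section integral

variable {K : Type*} [Field K] {v : QVal K} {W : WeierstrassCurve K} {a b : K}

/-- the model of `W` over the ring of `v`-integers -/
theorem mz2l_exists_int_model (hW : IsLeg W a b) (ha : v.Ge a 0) (hb : v.Ge b 0) :
    ∃ W₀ : WeierstrassCurve (integerSubring v), W = W₀.map (integerSubring v).subtype := by
  refine ⟨⟨0, ⟨a, ha⟩, 0, ⟨b, hb⟩, 0⟩, ?_⟩
  ext
  · simp [hW.a₁]
  · simp [hW.a₂]
  · simp [hW.a₃]
  · simp [hW.a₄]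
  · simp [hW.a₆]

/-- a polynomial with integral coefficients has integral values at integral arguments -/
theorem mz2l_ge_eval_map (f : (integerSubring v)[X]) {r : K} (hr : v.Ge r 0) :
    v.Ge ((f.map (integerSubring v).subtype).eval r) 0 := by
  have : (f.map (integerSubring v).subtype).eval r =
      (integerSubring v).subtype (f.eval ⟨r, hr⟩) := by
    rw [eval_map]
    exact (eval₂_at_apply (integerSubring v).subtype (⟨r, hr⟩ : integerSubring v))
  rw [this]
  exact (f.eval ⟨r, hr⟩).2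

/-- `Φ_n` has integral values at integral arguments -/
theorem mz2l_ge_eval_Φ (hW : IsLeg W a b) (ha : v.Ge a 0) (hb : v.Ge b 0) (n : ℤ) {r : K}
    (hr : v.Ge r 0) : v.Ge ((W.Φ n).eval r) 0 := by
  obtain ⟨W₀, rfl⟩ := mz2l_exists_int_model hW ha hb
  rw [WeierstrassCurve.map_Φ]
  exact mz2l_ge_eval_map _ hr

/-- `ΨSq_n` has integral values at integral arguments -/
theorem mz2l_ge_eval_ΨSq (hW : IsLeg W a b) (ha : v.Ge a 0) (hb : v.Ge b 0) (n : ℤ) {r : K}
    (hr : v.Ge r 0) : v.Ge ((W.ΨSq n).eval r) 0 := by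
  obtain ⟨W₀, rfl⟩ := mz2l_exists_int_model hW ha hb
  rw [WeierstrassCurve.map_ΨSq]
  exact mz2l_ge_eval_map _ hr

end integral

section roots

variable {K : Type*} [Field K] [IsAlgClosed K] {v : QVal K}

/-- a product of integral elements is integral -/
theorem mz2l_ge_multiset_prod (s : Multiset K) (hs : ∀ z ∈ s, v.Ge z 0) : v.Ge s.prod 0 := by
  induction s using Multiset.induction_on with
  | empty => simpa using (QVal.is_one (v := v)).ge
  | cons z s ih =>
    rw [Multiset.prod_cons]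
    have h1 := hs z (Multiset.mem_cons_self z s)
    have h2 := ih (fun w hw => hs w (Multiset.mem_cons_of_mem hw))
    have := h1.mul h2
    rwa [add_zero] at this

/-- **Root lemma**: a monic polynomial with a non-integral value at an integral argument has a
root of negative order. -/
theorem mz2l_exists_root_lt (F : K[X]) (hF : F.Monic) {r : K} (hr : v.Ge r 0)
    (hval : v.Lt (F.eval r) 0) : ∃ ρ : K, F.eval ρ = 0 ∧ v.Lt ρ 0 := by
  by_contra hcon
  push Not at hcon
  have hF0 : F ≠ 0 := hF.ne_zero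
  have hall : ∀ z ∈ F.roots.map (r - ·), v.Ge z 0 := by
    intro z hz
    obtain ⟨ρ, hρ, rfl⟩ := Multiset.mem_map.mp hz
    have hρ0 : F.eval ρ = 0 := (mem_roots hF0).mp hρ
    have hge : v.Ge ρ 0 := by
      rcases QVal.lt_or_ge (v := v) ρ 0 with h | h
      · exact absurd h (hcon ρ hρ0)
      · exact h
    exact hr.sub hge
  have hprod := mz2l_ge_multiset_prod _ hall
  rw [← (IsAlgClosed.splits F).eval_eq_prod_roots_of_monic hF r] at hprod
  exact hval.not_ge hprod le_rfl

end roots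

end Fermat.Agent.Mazur2
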