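import Fermat.Agent.Lib.Mazur2.LocP.DivX

/-!
# ISOG (P4), part 2: the kernel of reduction is `p`-divisible (generic form)

`W : y² = x³ + a x² + b x` over an algebraically closed field of characteristic `0`, `v` a
`ℚ`-valued valuation with `a, b` integral, `p` odd with `ord p = 1`.  Write `S¹` for the nonzero
`p`-torsion points in the kernel of reduction (`ord x(T) < 0`).  If the total depth
`∑_{T ∈ S¹} (- ord x(T))` is at least `2` and `r` is an integral element with `ord (r - x(T)) = 0`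
for all the other nonzero `p`-torsion points `T`, then every point of the kernel of reduction is
`p` times a point of the kernel of reduction.

Proof: `ΨSq_p(r) = p² ∏ (r - x(T))` is then a unit; for `y₀ = (X₀, Y₀)` in the kernel the monic
polynomial `F = Φ_p - X₀ ΨSq_p` has the non-integral value `F(r)`, hence a root `ρ` of negative
order (root lemma); the point `P = (ρ, ·)` lies in the kernel and `x(p • P) = X₀`.
-/

set_option autoImplicit false
set_option linter.unusedSectionVars false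
set_option linter.unusedVariables false

open WeierstrassCurve WeierstrassCurve.Affine Polynomial

namespace Fermat.Agent.Mazur2

open Fermat.Agent.S05Lib Fermat.Agent.S13Lib

section sums

variable {K : Type*} [Field K] {v : QVal K}

/-- a finite sum of elements of order `> t` has order `> t` -/
theorem mz2l_gt_sum {ι : Type*} (s : Finset ι) (f : ι → K) {t : ℚ}
    (h : ∀ i ∈ s, v.Gt (f i) t) : v.Gt (∑ i ∈ s, f i) t := by
  classical
  induction s using Finset.induction_on with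
  | empty => simpa using (QVal.gt_zero' (v := v) (t := t))
  | insert i s hi ih =>
    rw [Finset.sum_insert hi]
    exact (h i (Finset.mem_insert_self i s)).add
      (ih (fun j hj => h j (Finset.mem_insert_of_mem hj)))

/-- a monic polynomial with integral coefficients does not vanish at an element of negative
order -/
theorem mz2l_eval_ne_zero_of_lt (g : (integerSubring v)[X]) (hg : g.Monic) {ρ : K}
    (hρ : v.Lt ρ 0) : (g.map (integerSubring v).subtype).eval ρ ≠ 0 := by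
  set f := g.map (integerSubring v).subtype with hf
  have hfm : f.Monic := hg.map _
  set d := f.natDegree with hd
  set t := v.ord ρ with ht
  have ht0 : t < 0 := hρ.2
  have hρi : v.Is ρ t := ⟨hρ.1, rfl⟩
  have hsum : f.eval ρ = ρ ^ d + ∑ i ∈ Finset.range d, f.coeff i * ρ ^ i := by
    conv_lhs => rw [hfm.as_sum]
    simp [eval_finsetSum, hd]
  have hlow : v.Gt (∑ i ∈ Finset.range d, f.coeff i * ρ ^ i) ((d : ℚ) * t) := by
    apply mz2l_gt_sum
    intro i hi
    have hid : i < d := Finset.mem_range.mp hi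
    have hc : v.Ge (f.coeff i) 0 := by
      rw [hf, coeff_map]
      exact (g.coeff i).2
    have hp : v.Is (ρ ^ i) ((i : ℚ) * t) := hρi.pow i
    have := hc.mul hp.ge
    refine this.gt ?_
    have h1 : (i : ℚ) + 1 ≤ d := by exact_mod_cast hid
    nlinarith
  have htop : v.Is (ρ ^ d) ((d : ℚ) * t) := hρi.pow d
  rw [hsum]
  exact (htop.add_gt hlow).1

end sums

section generic

variable {K : Type*} [Field K] [DecidableEq K] [IsAlgClosed K] [CharZero K] {v : QVal K}
  {W : WeierstrassCurve K} {a b : K}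

/-- `Φ_n` does not vanish at elements of negative order -/
theorem mz2l_Φ_eval_ne_zero (hW : IsLeg W a b) (ha : v.Ge a 0) (hb : v.Ge b 0) (n : ℤ) {ρ : K}
    (hρ : v.Lt ρ 0) : (W.Φ n).eval ρ ≠ 0 := by
  obtain ⟨W₀, rfl⟩ := mz2l_exists_int_model hW ha hb
  rw [WeierstrassCurve.map_Φ]
  refine mz2l_eval_ne_zero_of_lt _ ?_ hρ
  rw [Monic, WeierstrassCurve.leadingCoeff_Φ]

/-- the value of `ΨSq_p` at `r` as a product over the nonzero `p`-torsion points -/
theorem mz2l_ΨSq_eval_eq_prod (hW : IsLeg W a b) (hb0 : b ≠ 0) (hab : a ^ 2 - 4 * b ≠ 0) {p : ℕ}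
    (hp : Odd p) (Vp : Finset W.toAffine.Point) (hVp : ∀ T, T ∈ Vp ↔ p • T = 0) (r : K) :
    (W.ΨSq (p : ℤ)).eval r = (p : K) ^ 2 * ∏ T ∈ Vp.erase 0, (r - xc T) := by
  rw [mz2l_ΨSq_odd W hp, preΨ'_sq_eq_prod hW hb0 hab hp Vp hVp, eval_mul, eval_C, eval_prod]
  simp

open scoped Classical in
/-- **`p`-divisibility of the kernel of reduction** (generic form). -/
theorem mz2l_div_generic (hW : IsLeg W a b) (hb0 : b ≠ 0) (hab : a ^ 2 - 4 * b ≠ 0)
    (ha : v.Ge a 0) (hb : v.Ge b 0) {p : ℕ} (hp : Odd p) (hpv : v.Is (p : K) 1)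
    (Vp : Finset W.toAffine.Point) (hVp : ∀ T, T ∈ Vp ↔ p • T = 0)
    (hdepth : 2 ≤ ∑ T ∈ (Vp.erase 0).filter (fun T => v.Lt (xc T) 0), (-(v.ord (xc T))))
    {r : K} (hr : v.Ge r 0)
    (hr0 : ∀ T ∈ Vp.erase 0, ¬ v.Lt (xc T) 0 → v.Is (r - xc T) 0)
    {X₀ Y₀ : K} (h₀ : W.toAffine.Nonsingular X₀ Y₀) (hX₀ : v.Lt X₀ 0) :
    ∃ (x y : K) (h : W.toAffine.Nonsingular x y), v.Lt x 0 ∧
      p • Point.some x y h = Point.some X₀ Y₀ h₀ := by
  classical
  have h2 : (2 : K) ≠ 0 := two_ne_zero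
  set S := Vp.erase 0 with hS
  set S1 := S.filter (fun T => v.Lt (xc T) 0) with hS1
  set S0 := S.filter (fun T => ¬ v.Lt (xc T) 0) with hS0
  -- the value `ΨSq_p(r)` is a unit
  have hval := mz2l_ΨSq_eval_eq_prod hW hb0 hab hp Vp hVp r
  have hsplit : ∏ T ∈ S, (r - xc T) = (∏ T ∈ S1, (r - xc T)) * ∏ T ∈ S0, (r - xc T) :=
    (Finset.prod_filter_mul_prod_filter_not S _ _).symm
  have h1 : ∀ T ∈ S1, v.Is (r - xc T) (v.ord (xc T)) := by
    intro T hT
    have hlt : v.Lt (xc T) 0 := (Finset.mem_filter.mp hT).2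
    have hi : v.Is (xc T) (v.ord (xc T)) := ⟨hlt.1, rfl⟩
    have := hi.neg.add_gt' (hr.gt hlt.2)
    have e : r + -xc T = r - xc T := by ring
    rwa [e] at this
  have h0 : ∀ T ∈ S0, v.Is (r - xc T) 0 := by
    intro T hT
    obtain ⟨hTS, hnlt⟩ := Finset.mem_filter.mp hT
    exact hr0 T hTS hnlt
  have hP1 : v.Is (∏ T ∈ S1, (r - xc T)) (∑ T ∈ S1, v.ord (xc T)) := by
    refine ⟨Finset.prod_ne_zero_iff.mpr (fun T hT => (h1 T hT).1), ?_⟩
    rw [ord_prod _ _ (fun T hT => (h1 T hT).1)]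
    exact Finset.sum_congr rfl (fun T hT => (h1 T hT).2)
  have hP0 : v.Is (∏ T ∈ S0, (r - xc T)) 0 := by
    refine ⟨Finset.prod_ne_zero_iff.mpr (fun T hT => (h0 T hT).1), ?_⟩
    rw [ord_prod _ _ (fun T hT => (h0 T hT).1)]
    exact Finset.sum_eq_zero (fun T hT => (h0 T hT).2)
  have hΨ : v.Is ((W.ΨSq (p : ℤ)).eval r) (2 + ∑ T ∈ S1, v.ord (xc T)) := by
    rw [hval, hsplit]
    have := (hpv.pow 2).mul (hP1.mul hP0)
    refine this.congr ?_
    push_cast
    ring
  have hΨge := mz2l_ge_eval_ΨSq hW ha hb (p : ℤ) hr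
  have hδ : ∑ T ∈ S1, v.ord (xc T) = -2 := by
    have hle : 0 ≤ 2 + ∑ T ∈ S1, v.ord (xc T) := by
      rcases hΨge with h | h
      · exact absurd h hΨ.1
      · rw [hΨ.2] at h; exact h
    have hge : 2 ≤ -∑ T ∈ S1, v.ord (xc T) := by
      rw [← Finset.sum_neg_distrib]
      exact hdepth
    linarith
  have hΨ0 : v.Is ((W.ΨSq (p : ℤ)).eval r) 0 := hΨ.congr (by rw [hδ]; ring)
  -- the polynomial `F`
  set F : K[X] := W.Φ (p : ℤ) - C X₀ * W.ΨSq (p : ℤ) with hF
  have hpK : ((p : ℤ) : K) ≠ 0 := by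
    have : (p : K) ≠ 0 := hpv.1
    exact_mod_cast this
  have hdegΦ : (W.Φ (p : ℤ)).natDegree = p ^ 2 := by
    rw [WeierstrassCurve.natDegree_Φ]
    simp
  have hdegΨ : (C X₀ * W.ΨSq (p : ℤ)).natDegree < p ^ 2 := by
    have h1 : (C X₀ * W.ΨSq (p : ℤ)).natDegree ≤ (W.ΨSq (p : ℤ)).natDegree :=
      natDegree_C_mul_le _ _
    have h2' : (W.ΨSq (p : ℤ)).natDegree ≤ p ^ 2 - 1 := by
      have := W.natDegree_ΨSq_le (p : ℤ)
      simpa using this
    have hp0 : 0 < p ^ 2 := pow_pos hp.pos 2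
    omega
  have hFm : F.Monic := by
    apply Monic.sub_of_left
    · rw [Monic, WeierstrassCurve.leadingCoeff_Φ]
    · exact degree_lt_degree (by rw [hdegΦ]; exact hdegΨ)
  have hFr : v.Lt (F.eval r) 0 := by
    rw [hF, eval_sub, eval_mul, eval_C]
    have hXΨ : v.Is (X₀ * (W.ΨSq (p : ℤ)).eval r) (v.ord X₀) := by
      have := (QVal.is_ord (v := v) hX₀.1).mul hΨ0
      rwa [add_zero] at this
    have hΦge := mz2l_ge_eval_Φ hW ha hb (p : ℤ) hr
    have := hXΨ.neg.add_gt' (hΦge.gt hX₀.2)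
    have e : (W.Φ (p : ℤ)).eval r + -(X₀ * (W.ΨSq (p : ℤ)).eval r) =
        (W.Φ (p : ℤ)).eval r - X₀ * (W.ΨSq (p : ℤ)).eval r := by ring
    rw [e] at this
    exact this.lt hX₀.2
  obtain ⟨ρ, hρ0, hρ⟩ := mz2l_exists_root_lt F hFm hr hFr
  rw [hF, eval_sub, eval_mul, eval_C] at hρ0
  -- the point above `ρ`
  obtain ⟨y, hy⟩ := IsAlgClosed.exists_pow_nat_eq (ρ ^ 3 + a * ρ ^ 2 + b * ρ) two_pos
  have hns : W.toAffine.Nonsingular ρ y := Torsion.isLeg_nonsingular_of_equation hW h2 hb0 hab hy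
  have hΦρ : (W.Φ (p : ℤ)).eval ρ ≠ 0 := mz2l_Φ_eval_ne_zero hW ha hb (p : ℤ) hρ
  have hΨρ : (W.ΨSq (p : ℤ)).eval ρ ≠ 0 := by
    intro h0
    apply hΦρ
    rw [h0, mul_zero, sub_zero] at hρ0
    exact hρ0
  have hne0 : p • Point.some ρ y hns ≠ 0 := fun h0 =>
    hΨρ ((mz2l_nsmul_eq_zero_iff hW h2 hns hp).mp h0)
  rcases hpP : p • Point.some ρ y hns with _ | ⟨x', y', h'⟩
  · exact absurd hpP hne0
  · have hx' := mz2l_x_nsmul hW h2 hns hp hpP
    have hx'X : x' = X₀ := by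
      have : (x' - X₀) * (W.ΨSq (p : ℤ)).eval ρ = 0 := by linear_combination hx' + hρ0
      rcases mul_eq_zero.mp this with h | h
      · exact sub_eq_zero.mp h
      · exact absurd h hΨρ
    subst hx'X
    rcases some_eq_or_eq_neg hW h₀ h' with hE | hE
    · exact ⟨ρ, y, hns, hρ, by rw [hpP, hE]⟩
    · -- replace `P` by `-P`
      obtain ⟨hn', en⟩ := hW.neg_some hns
      refine ⟨ρ, -y, hn', hρ, ?_⟩
      rw [← en, smul_neg, hpP, hE, neg_neg]

end generic

end Fermat.Agent.Mazur2
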