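import Fermat.Agent.Lib.Mazur2.Chain.Group

/-!
# ISOG (P4), part 5: abstract group theory for the kernel of reduction

* `mz2l_card_tower` : a `p`-divisible subgroup `K` with at least `p` points of order dividing `p`
  has at least `p ^ n` points of order dividing `p ^ n`.
* `mz2l_line_ne_bot`, `mz2l_exists_notMem_line` : a subgroup of order `p` of a group whose
  `p`-torsion has `p²` elements is neither trivial nor everything.
* transport of `mz2cTor` along an additive equivalence.
-/

set_option autoImplicit false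

namespace Fermat.Agent.Mazur2

variable {T : Type*} [AddCommGroup T] {p : ℕ}

/-- **the tower count** -/
theorem mz2l_card_tower (K : AddSubgroup T)
    (hdiv : ∀ y ∈ K, ∃ x ∈ K, p • x = y)
    (h1 : p ≤ Nat.card ↥(K ⊓ mz2cTor T p 1))
    (hfin : ∀ n : ℕ, Finite ↥(mz2cTor T p n)) (n : ℕ) :
    p ^ n ≤ Nat.card ↥(K ⊓ mz2cTor T p n) := by
  classical
  have hfinK : ∀ n : ℕ, Finite ↥(K ⊓ mz2cTor T p n) := fun n =>
    have := hfin n
    Finite.of_injective _ (AddSubgroup.inclusion_injective (inf_le_right : K ⊓ mz2cTor T p n ≤ _))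
  induction n with
  | zero =>
    rw [pow_zero]
    have := hfinK 0
    exact Nat.card_pos
  | succ n ih =>
    choose s hsK hs using hdiv
    -- the injection `(k, y) ↦ k + s y`
    have hK1 : ∀ k : ↥(K ⊓ mz2cTor T p 1), (k : T) ∈ K ∧ p • (k : T) = 0 := fun k =>
      ⟨(AddSubgroup.mem_inf.mp k.2).1, mem_mz2cTor_one.mp (AddSubgroup.mem_inf.mp k.2).2⟩
    have hKn : ∀ y : ↥(K ⊓ mz2cTor T p n), (y : T) ∈ K ∧ (y : T) ∈ mz2cTor T p n := fun y =>
      AddSubgroup.mem_inf.mp y.2
    have hmem : ∀ z : ↥(K ⊓ mz2cTor T p 1) × ↥(K ⊓ mz2cTor T p n),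
        (z.1 : T) + s z.2.1 (hKn z.2).1 ∈ K ⊓ mz2cTor T p (n + 1) := by
      intro z
      refine AddSubgroup.mem_inf.mpr ⟨K.add_mem (hK1 z.1).1 (hsK _ _), ?_⟩
      rw [mem_mz2cTor_succ, smul_add, hs, (hK1 z.1).2, zero_add]
      exact (hKn z.2).2
    let f : ↥(K ⊓ mz2cTor T p 1) × ↥(K ⊓ mz2cTor T p n) → ↥(K ⊓ mz2cTor T p (n + 1)) :=
      fun z => ⟨(z.1 : T) + s z.2.1 (hKn z.2).1, hmem z⟩
    have hf : Function.Injective f := by
      rintro ⟨k, y⟩ ⟨k', y'⟩ hkk
      have e : (k : T) + s y.1 (hKn y).1 = (k' : T) + s y'.1 (hKn y').1 :=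
        congrArg Subtype.val hkk
      have e' := congrArg (fun t => p • t) e
      simp only [smul_add, hs] at e'
      rw [(hK1 k).2, (hK1 k').2, zero_add, zero_add] at e'
      have hy : y = y' := Subtype.ext e'
      subst hy
      have : (k : T) = k' := add_right_cancel e
      rw [Subtype.ext this]
    have := hfinK (n + 1)
    have hle := Nat.card_le_card_of_injective f hf
    rw [Nat.card_prod] at hle
    calc p ^ (n + 1) = p * p ^ n := by rw [pow_succ, mul_comm]
      _ ≤ Nat.card ↥(K ⊓ mz2cTor T p 1) * Nat.card ↥(K ⊓ mz2cTor T p n) :=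
        Nat.mul_le_mul h1 ih
      _ ≤ _ := hle

/-- a subgroup of prime order is not trivial -/
theorem mz2l_line_ne_bot (hp : p.Prime) (N : AddSubgroup T) (hN : Nat.card N = p) : N ≠ ⊥ := by
  intro h
  rw [h, AddSubgroup.card_bot] at hN
  exact hp.one_lt.ne hN

/-- a subgroup of order `p` does not contain all of a `p`-torsion of order `p²` -/
theorem mz2l_exists_notMem_line (hp : p.Prime) (N : AddSubgroup T) (hN : Nat.card N = p)
    (hc : Nat.card ↥(mz2cTor T p 1) = p ^ 2) : ∃ x : T, p • x = 0 ∧ x ∉ N := by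
  by_contra hcon
  push Not at hcon
  have hle : mz2cTor T p 1 ≤ N := fun x hx => hcon x (mem_mz2cTor_one.mp hx)
  have : Finite N := Nat.finite_of_card_ne_zero (by rw [hN]; exact hp.ne_zero)
  have := Nat.card_le_card_of_injective _ (AddSubgroup.inclusion_injective hle)
  rw [hc, hN] at this
  have h2 := hp.two_le
  nlinarith

/-- transport of the torsion along an additive equivalence -/
theorem mz2l_map_mem_tor {T' : Type*} [AddCommGroup T'] (φ : T ≃+ T') {n : ℕ} {x : T} :
    φ x ∈ mz2cTor T' p n ↔ x ∈ mz2cTor T p n := by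
  rw [mem_mz2cTor, mem_mz2cTor, ← map_nsmul, map_eq_zero_iff φ φ.injective]

end Fermat.Agent.Mazur2
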