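import Fermat.Agent.Lib.Mazur2.LocP.Decomp
import Fermat.Agent.Lib.Mazur2.LocP.Divis
import Fermat.Agent.Lib.Mazur2.LocP.Grp
import Fermat.Agent.Lib.S13.DivPoly.DepthBound

/-!
# ISOG (P4), part 6: the good case on the Legendre model

`legQ e r : y² = x (x - e) (x - r)` with `q ∤ e r (e - r)`, `q` odd, `v` a valuation over `q`
normalised by `ord q = 1`, `N` a Galois-stable subgroup of order `q` of the `q`-torsion on which
some inertia element at `q` acts non-trivially.  Then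

* `mz2l_good_not_all_ker` : the `q`-torsion is not contained in the kernel of reduction `E¹`;
* `mz2l_good_ker_tors` : `E¹[q] = N`;
* `mz2l_good_div` : `E¹` is `q`-divisible.
-/

set_option autoImplicit false
set_option linter.unusedSectionVars false
set_option linter.unusedVariables false

open WeierstrassCurve WeierstrassCurve.Affine WeierstrassCurve.Affine.Point

namespace Fermat.Agent.Mazur2

open Fermat.Agent.S05Lib Fermat.Agent.S13Lib

local notation "Qb" => AlgebraicClosure ℚ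

section good

variable {A : ValuationSubring Qb} {q : ℕ} {v : QVal Qb} (hv : QValFor A q v)
  (hq : q.Prime) (hq1 : v.ord ((q : ℕ) : Qb) = 1) (hq2 : q ≠ 2)
  {e r : ℤ} (he : ¬ (q : ℤ) ∣ e) (hr : ¬ (q : ℤ) ∣ r) (her : ¬ (q : ℤ) ∣ e - r)
include hv hq hq1 hq2 he hr her

omit hv hq1 hq2 in
/-- the nondegeneracy conditions -/
theorem mz2l_good_nondeg :
    e ≠ 0 ∧ r ≠ 0 ∧ e ≠ r ∧ ((e : Qb) * r) ≠ 0 ∧
      (-((e : Qb) + r)) ^ 2 - 4 * ((e : Qb) * r) ≠ 0 := by
  have he0 : e ≠ 0 := fun h => he (h ▸ dvd_zero _)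
  have hr0 : r ≠ 0 := fun h => hr (h ▸ dvd_zero _)
  have her0 : e ≠ r := fun h => her (by rw [h, sub_self]; exact dvd_zero _)
  refine ⟨he0, hr0, her0, mul_ne_zero (Int.cast_ne_zero.mpr he0) (Int.cast_ne_zero.mpr hr0), ?_⟩
  have : (-((e : Qb) + r)) ^ 2 - 4 * ((e : Qb) * r) = ((e : Qb) - r) ^ 2 := by ring
  rw [this]
  apply pow_ne_zero
  rw [sub_ne_zero]
  exact_mod_cast her0

omit hv hq1 hq2 in
/-- the count of the `q`-torsion of the Legendre model -/
theorem mz2l_good_card :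
    Nat.card {T : ((legQ e r).toAffine⁄Qb).Point // q • T = 0} = q ^ 2 := by
  obtain ⟨-, -, -, hb0, hab⟩ := mz2l_good_nondeg hq he hr her
  exact Torsion.natCard_torsion (isLeg_legQ e r) hb0 hab hq.pos

variable (N : AddSubgroup ((legQ e r).toAffine⁄Qb).Point) (hNV : ∀ T ∈ N, q • T = 0)
  (hstab : ∀ σ : Qb ≃ₐ[ℚ] Qb, ∀ T ∈ N, σ • T ∈ N) (hbot : N ≠ ⊥)
  (htop : ∃ T : ((legQ e r).toAffine⁄Qb).Point, q • T = 0 ∧ T ∉ N)
include hNV hstab hbot htop

/-- **not all of the `q`-torsion lies in the kernel of reduction** -/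
theorem mz2l_good_not_all_ker :
    ¬ ∀ T : ((legQ e r).toAffine⁄Qb).Point, q • T = 0 → T ≠ 0 → v.Lt (xc T) 0 := by
  classical
  intro hall
  have hW := isLeg_legQ e r
  have hqodd : ¬ 2 ∣ q := fun h => hq2 ((Nat.prime_dvd_prime_iff_eq Nat.prime_two hq).mp h).symm
  have hqO : Odd q := Nat.odd_iff.mpr (Nat.two_dvd_ne_zero.mp hqodd)
  obtain ⟨he0, hr0, her0, hb0, hab⟩ := mz2l_good_nondeg hq he hr her
  have hc := mz2l_good_card hq he hr her
  have hfinT : Finite {T : ((legQ e r).toAffine⁄Qb).Point // q • T = 0} :=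
    Nat.finite_of_card_ne_zero (by rw [hc]; exact pow_ne_zero _ hq.ne_zero)
  have hfin : {T : ((legQ e r).toAffine⁄Qb).Point | q • T = 0}.Finite := hfinT
  have hB := depthBoundAt_legQ_of_divPoly e r he0 hr0 her0 hv hqO hq1 hfin hall
  set V := hfin.toFinset with hVdef
  have hVmem : ∀ T, T ∈ V ↔ q • T = 0 := fun T => by rw [hVdef, Set.Finite.mem_toFinset]; rfl
  -- the two Galois-stable pieces
  set SN := (V.erase 0).filter (fun T => T ∈ N) with hSN
  set SC := (V.erase 0).filter (fun T => T ∉ N) with hSC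
  have hsum : ∑ T ∈ V.erase 0, (-(v.ord (xc T))) =
      ∑ T ∈ SN, (-(v.ord (xc T))) + ∑ T ∈ SC, (-(v.ord (xc T))) :=
    (Finset.sum_filter_add_sum_filter_not _ _ _).symm
  have hmemE : ∀ T, T ∈ V.erase 0 ↔ T ≠ 0 ∧ q • T = 0 := fun T => by
    rw [Finset.mem_erase, hVmem]
  have hsmulE : ∀ σ : Qb ≃ₐ[ℚ] Qb, ∀ T ∈ V.erase 0, σ • T ∈ V.erase 0 := by
    intro σ T hT
    rw [hmemE] at hT ⊢
    refine ⟨fun h => hT.1 ((smul_eq_zero_iff' σ T).mp h), ?_⟩
    have := algEquiv_smul_zsmul σ (q : ℤ) T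
    rw [natCast_zsmul, natCast_zsmul, hT.2] at this
    rw [← this]
    rfl
  have hnegE : ∀ T ∈ V.erase 0, -T ∈ V.erase 0 := by
    intro T hT
    rw [hmemE] at hT ⊢
    exact ⟨neg_ne_zero.mpr hT.1, by rw [neg_nsmul, hT.2, _root_.neg_zero]⟩
  have h2torE : ∀ T ∈ V.erase 0, -T ≠ T := by
    intro T hT hneg
    rw [hmemE] at hT
    apply hT.1
    have h2T : 2 • T = 0 := by
      rw [two_smul]
      nth_rewrite 1 [← hneg]
      exact neg_add_cancel T
    obtain ⟨k, hk⟩ := hqO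
    have : q • T = T := by
      rw [hk, add_smul, mul_smul, one_smul]
      rw [show (2 : ℕ) • k • T = k • (2 • T) from smul_comm 2 k T, h2T, nsmul_zero, zero_add]
    rw [← this]
    exact hT.2
  have hkerE : ∀ T ∈ V.erase 0, v.Lt (xc T) 0 := by
    intro T hT
    rw [hmemE] at hT
    exact hall T hT.2 hT.1
  have hNiff : ∀ σ : Qb ≃ₐ[ℚ] Qb, ∀ T, σ • T ∈ N ↔ T ∈ N := by
    intro σ T
    constructor
    · intro h
      have := hstab σ⁻¹ _ h
      rwa [inv_smul_smul] at this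
    · exact hstab σ T
  have hN2 : 2 ≤ ∑ T ∈ SN, (-(v.ord (xc T))) := by
    apply two_le_sum_depth hv hq hq1 hW SN
    · obtain ⟨⟨T, hT⟩, hT0'⟩ := (AddSubgroup.ne_bot_iff_exists_ne_zero.mp hbot)
      have hT0 : T ≠ 0 := fun h => hT0' (Subtype.ext h)
      refine ⟨T, ?_⟩
      rw [hSN, Finset.mem_filter, hmemE]
      exact ⟨⟨hT0, hNV T hT⟩, hT⟩
    · intro σ T hT
      rw [hSN, Finset.mem_filter] at hT ⊢
      exact ⟨hsmulE σ T hT.1, (hNiff σ T).mpr hT.2⟩
    · intro T hT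
      rw [hSN, Finset.mem_filter] at hT ⊢
      exact ⟨hnegE T hT.1, N.neg_mem hT.2⟩
    · intro T hT
      rw [hSN, Finset.mem_filter] at hT
      exact h2torE T hT.1
    · intro T hT
      rw [hSN, Finset.mem_filter] at hT
      exact hkerE T hT.1
  have hC2 : 2 ≤ ∑ T ∈ SC, (-(v.ord (xc T))) := by
    apply two_le_sum_depth hv hq hq1 hW SC
    · obtain ⟨T, hT, hTN⟩ := htop
      refine ⟨T, ?_⟩
      rw [hSC, Finset.mem_filter, hmemE]
      refine ⟨⟨?_, hT⟩, hTN⟩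
      intro h0
      rw [h0] at hTN
      exact hTN N.zero_mem
    · intro σ T hT
      rw [hSC, Finset.mem_filter] at hT ⊢
      exact ⟨hsmulE σ T hT.1, fun h => hT.2 ((hNiff σ T).mp h)⟩
    · intro T hT
      rw [hSC, Finset.mem_filter] at hT ⊢
      refine ⟨hnegE T hT.1, fun h => hT.2 ?_⟩
      have := N.neg_mem h
      rwa [neg_neg] at this
    · intro T hT
      rw [hSC, Finset.mem_filter] at hT
      exact h2torE T hT.1
    · intro T hT
      rw [hSC, Finset.mem_filter] at hT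
      exact hkerE T hT.1
  rw [hsum] at hB
  linarith

variable (hcyc : ∃ σ ∈ A.inertiaSubgroupIn ℚ, ∃ y ∈ N, σ • y ≠ y)
include hcyc

/-- **`E¹[q] = N`** -/
theorem mz2l_good_ker_tors (T : ((legQ e r).toAffine⁄Qb).Point) (hT : q • T = 0) :
    Mz2lInKer v T ↔ T ∈ N := by
  classical
  have hW := isLeg_legQ e r
  obtain ⟨ha, hb⟩ := legQ_integral hv e r
  have h2 := hv.is_two hq hq2
  have hc := mz2l_good_card hq he hr her
  set Vp : AddSubgroup ((legQ e r).toAffine⁄Qb).Point := mz2cTor _ q 1 with hVp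
  have hVpmem : ∀ T, T ∈ Vp ↔ q • T = 0 := fun T => mem_mz2cTor_one
  have hVpcard : Nat.card Vp = q ^ 2 := by
    rw [← hc]
    exact Nat.card_congr (Equiv.subtypeEquivRight hVpmem)
  have : Finite Vp := Nat.finite_of_card_ne_zero (by rw [hVpcard]; exact pow_ne_zero _ hq.ne_zero)
  set V1 : AddSubgroup ((legQ e r).toAffine⁄Qb).Point := mz2lKer hW ha hb h2 ⊓ Vp with hV1
  have hV1mem : ∀ T, T ∈ V1 ↔ Mz2lInKer v T ∧ q • T = 0 := fun T => by
    rw [hV1, AddSubgroup.mem_inf, mem_mz2lKer, hVpmem]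
  have hV1le : V1 ≤ Vp := inf_le_right
  have hNle : N ≤ Vp := fun T hT => (hVpmem T).mpr (hNV T hT)
  have hNtop : N ≠ Vp := by
    obtain ⟨T, hT, hTN⟩ := htop
    intro h
    apply hTN
    rw [h]
    exact (hVpmem T).mpr hT
  have hV1top : V1 ≠ Vp := by
    intro hEq
    apply mz2l_good_not_all_ker hv hq hq1 hq2 he hr her N hNV hstab hbot htop
    intro T hT hT0
    have : T ∈ V1 := by rw [hEq]; exact (hVpmem T).mpr hT
    have := ((hV1mem T).mp this).1
    rw [mz2lInKer_iff] at this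
    exact this.resolve_left hT0
  rcases subgroup_dichotomy hq Vp N V1 hVpcard hNle hV1le hbot hNtop hV1top with h | h
  · exfalso
    obtain ⟨σ, hσ, y, hy, hne⟩ := hcyc
    apply hne
    obtain ⟨τ, hτ, i⟩ := leg_map_sub_inE_good hv hq hq2 hσ he hr her y
    have h1 : σ • y - y ∈ N := N.sub_mem (hstab σ y hy) hy
    have hqy : q • (σ • y - y) = 0 := hNV _ h1
    have h2' : σ • y - y ∈ V1 := (hV1mem _).mpr ⟨⟨τ, hτ, i⟩, hqy⟩
    have : σ • y - y ∈ N ⊓ V1 := ⟨h1, h2'⟩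
    rw [h] at this
    exact sub_eq_zero.mp ((AddSubgroup.mem_bot).mp this)
  · rw [← h, hV1mem]
    exact ⟨fun h' => ⟨h', hT⟩, fun h' => h'.1⟩

/-- **the kernel of reduction is `q`-divisible** -/
theorem mz2l_good_div (Q : ((legQ e r).toAffine⁄Qb).Point) (hQ : Mz2lInKer v Q) :
    ∃ Q' : ((legQ e r).toAffine⁄Qb).Point, Mz2lInKer v Q' ∧ q • Q' = Q := by
  classical
  rcases Q with _ | ⟨X₀, Y₀, h₀⟩
  · exact ⟨0, mz2lInKer_zero, nsmul_zero q⟩
  have hX₀ : v.Lt X₀ 0 := (mz2lInKer_some h₀).mp hQ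
  have hW := isLeg_legQ e r
  obtain ⟨ha, hb⟩ := legQ_integral hv e r
  have h2 := hv.is_two hq hq2
  have hqodd : ¬ 2 ∣ q := fun h => hq2 ((Nat.prime_dvd_prime_iff_eq Nat.prime_two hq).mp h).symm
  have hqO : Odd q := Nat.odd_iff.mpr (Nat.two_dvd_ne_zero.mp hqodd)
  obtain ⟨he0, hr0, her0, hb0, hab⟩ := mz2l_good_nondeg hq he hr her
  have hc := mz2l_good_card hq he hr her
  have hfinT : Finite {T : ((legQ e r).toAffine⁄Qb).Point // q • T = 0} :=
    Nat.finite_of_card_ne_zero (by rw [hc]; exact pow_ne_zero _ hq.ne_zero)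
  have hfin : {T : ((legQ e r).toAffine⁄Qb).Point | q • T = 0}.Finite := hfinT
  set V := hfin.toFinset with hVdef
  have hVmem : ∀ T, T ∈ V ↔ q • T = 0 := fun T => by rw [hVdef, Set.Finite.mem_toFinset]; rfl
  have hq0 : ((q : ℕ) : Qb) ≠ 0 := by exact_mod_cast hq.ne_zero
  have hpv : v.Is ((q : ℕ) : Qb) 1 := ⟨hq0, hq1⟩
  have hkt := mz2l_good_ker_tors hv hq hq1 hq2 he hr her N hNV hstab hbot htop hcyc
  -- the depth of `E¹[q]`
  set S := (V.erase 0).filter (fun T => v.Lt (xc T) 0) with hS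
  have hSmem : ∀ T, T ∈ S ↔ T ≠ 0 ∧ T ∈ N := by
    intro T
    rw [hS, Finset.mem_filter, Finset.mem_erase, hVmem]
    constructor
    · rintro ⟨⟨h0, hT⟩, hlt⟩
      exact ⟨h0, (hkt T hT).mp ((mz2lInKer_iff T).mpr (Or.inr hlt))⟩
    · rintro ⟨h0, hT⟩
      have hqT := hNV T hT
      exact ⟨⟨h0, hqT⟩, ((mz2lInKer_iff T).mp ((hkt T hqT).mpr hT)).resolve_left h0⟩
  have hdepth : 2 ≤ ∑ T ∈ S, (-(v.ord (xc T))) := by
    apply two_le_sum_depth hv hq hq1 hW S
    · obtain ⟨⟨T, hT⟩, hT0'⟩ := (AddSubgroup.ne_bot_iff_exists_ne_zero.mp hbot)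
      have hT0 : T ≠ 0 := fun h => hT0' (Subtype.ext h)
      exact ⟨T, (hSmem T).mpr ⟨hT0, hT⟩⟩
    · intro σ T hT
      rw [hSmem] at hT ⊢
      exact ⟨fun h => hT.1 ((smul_eq_zero_iff' σ T).mp h), hstab σ T hT.2⟩
    · intro T hT
      rw [hSmem] at hT ⊢
      exact ⟨neg_ne_zero.mpr hT.1, N.neg_mem hT.2⟩
    · intro T hT hneg
      rw [hSmem] at hT
      apply hT.1
      have h2T : 2 • T = 0 := by
        rw [two_smul]
        nth_rewrite 1 [← hneg]
        exact neg_add_cancel T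
      obtain ⟨k, hk⟩ := hqO
      have : q • T = T := by
        rw [hk, add_smul, mul_smul, one_smul]
        rw [show (2 : ℕ) • k • T = k • (2 • T) from smul_comm 2 k T, h2T, nsmul_zero, zero_add]
      rw [← this]
      exact hNV T hT.2
    · intro T hT
      exact (Finset.mem_filter.mp hT).2
  -- the integral `2`-torsion point `(r, 0)`
  have hrge : v.Ge ((r : ℤ) : Qb) 0 := hv.ge_int r
  have heq : (0 : Qb) ^ 2 = ((r : ℤ) : Qb) ^ 3 + (-((e : Qb) + r)) * ((r : ℤ) : Qb) ^ 2 +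
      ((e : Qb) * r) * ((r : ℤ) : Qb) := by ring
  have h₂ : ((legQ e r).toAffine⁄Qb).Nonsingular ((r : ℤ) : Qb) 0 :=
    Torsion.isLeg_nonsingular_of_equation hW two_ne_zero hb0 hab heq
  have hre : ¬ (q : ℤ) ∣ r - e := fun h => her ((dvd_sub_comm).mp h)
  have hns : v.Is (3 * ((r : ℤ) : Qb) ^ 2 + 2 * (-((e : Qb) + r)) * ((r : ℤ) : Qb) +
      (e : Qb) * r) 0 := by
    have e1 : 3 * ((r : ℤ) : Qb) ^ 2 + 2 * (-((e : Qb) + r)) * ((r : ℤ) : Qb) + (e : Qb) * r =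
        ((r : ℤ) : Qb) * (((r - e : ℤ)) : Qb) := by push_cast; ring
    rw [e1]
    have := (hv.is_int hr).mul (hv.is_int hre)
    rwa [add_zero] at this
  have hr0' : ∀ T ∈ V.erase 0, ¬ v.Lt (xc T) 0 → v.Is (((r : ℤ) : Qb) - xc T) 0 := by
    intro T hT hTk
    rw [Finset.mem_erase, hVmem] at hT
    exact mz2l_far_of_two_torsion hW ha hb h2 h₂ hrge hns hqO hT.2 hT.1 hTk
  obtain ⟨x, y, h, hx, hxy⟩ := mz2l_div_generic hW hb0 hab ha hb hqO hpv V hVmem
    (by convert hdepth) hrge hr0' h₀ hX₀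
  exact ⟨Point.some x y h, (mz2lInKer_some h).mpr hx, hxy⟩

end good

end Fermat.Agent.Mazur2
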