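import Fermat.Agent.Lib.S13.AtP2
import Fermat.Agent.Lib.S13.DivPoly.Roots
import Fermat.Agent.Lib.S05.ClosePoints

/-!
# ISOG (P4), part 3: the kernel of reduction as a subgroup; odd torsion stays away from an
integral `2`-torsion point with nonsingular reduction

`W : y² = x³ + a x² + b x`, `v` a `ℚ`-valued valuation with `a, b` integral and `ord 2 = 0`.
* `mz2lKer` : the kernel of reduction `E¹ = {O} ∪ {ord x < 0}` as an additive subgroup.
* `mz2l_far_of_two_torsion` : if `(r₀, 0)` is an integral `2`-torsion point with nonsingular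
  reduction and `T ≠ 0` is a point of odd order outside `E¹`, then `ord (r₀ - x(T)) = 0`.
-/

set_option autoImplicit false
set_option linter.unusedSectionVars false
set_option linter.unusedVariables false

open WeierstrassCurve WeierstrassCurve.Affine

namespace Fermat.Agent.Mazur2

open Fermat.Agent.S05Lib Fermat.Agent.S13Lib

variable {K : Type*} [Field K] [DecidableEq K] {v : QVal K} {W : WeierstrassCurve K} {a b : K}

/-- membership in the kernel of reduction -/
def Mz2lInKer (v : QVal K) {W : WeierstrassCurve K} (T : W.toAffine.Point) : Prop :=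
  ∃ τ : ℚ, 0 < τ ∧ InE v τ T

theorem mz2lInKer_zero : Mz2lInKer v (0 : W.toAffine.Point) := ⟨1, one_pos, trivial⟩

theorem mz2lInKer_iff (T : W.toAffine.Point) : Mz2lInKer v T ↔ T = 0 ∨ v.Lt (xc T) 0 := by
  rcases T with _ | ⟨x, y, hxy⟩
  · exact ⟨fun _ => Or.inl rfl, fun _ => ⟨1, one_pos, trivial⟩⟩
  · constructor
    · rintro ⟨τ, hτ, h⟩
      right
      have h' : v.Le x (-τ) := h
      show v.Lt x 0
      exact ⟨h'.1, by linarith [h'.2]⟩
    · rintro (h | h)
      · exact absurd h (by simp)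
      · have hx : v.Lt x 0 := h
        refine ⟨-v.ord x, by linarith [hx.2], ?_⟩
        show v.Le x (-(-v.ord x))
        exact ⟨hx.1, by linarith⟩

theorem mz2lInKer_some {x y : K} (h : W.toAffine.Nonsingular x y) :
    Mz2lInKer v (Point.some x y h) ↔ v.Lt x 0 := by
  rw [mz2lInKer_iff]
  constructor
  · rintro (h0 | h0)
    · exact absurd h0 (by simp)
    · exact h0
  · exact fun h0 => Or.inr h0

section subgroup

variable (hW : IsLeg W a b) (ha : v.Ge a 0) (hb : v.Ge b 0) (h2 : v.Is (2 : K) 0)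
include hW ha hb h2

theorem mz2lInKer_add {T T' : W.toAffine.Point} (h : Mz2lInKer v T) (h' : Mz2lInKer v T') :
    Mz2lInKer v (T + T') := by
  obtain ⟨τ, hτ, i⟩ := h
  obtain ⟨τ', hτ', i'⟩ := h'
  exact ⟨min τ τ', lt_min hτ hτ',
    (inE_add_sub hW ha hb h2 (lt_min hτ hτ') (i.mono (min_le_left _ _))
      (i'.mono (min_le_right _ _))).1⟩

omit ha hb h2 in
theorem mz2lInKer_neg {T : W.toAffine.Point} (h : Mz2lInKer v T) : Mz2lInKer v (-T) := by
  obtain ⟨τ, hτ, i⟩ := h
  exact ⟨τ, hτ, i.neg hW⟩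

/-- the kernel of reduction -/
def mz2lKer : AddSubgroup W.toAffine.Point where
  carrier := {T | Mz2lInKer v T}
  zero_mem' := mz2lInKer_zero
  add_mem' := fun hx hy => mz2lInKer_add hW ha hb h2 hx hy
  neg_mem' := fun hx => mz2lInKer_neg hW hx

theorem mem_mz2lKer {T : W.toAffine.Point} :
    T ∈ mz2lKer hW ha hb h2 ↔ Mz2lInKer v T := Iff.rfl

theorem mz2lInKer_nsmul {T : W.toAffine.Point} (h : Mz2lInKer v T) (k : ℕ) :
    Mz2lInKer v (k • T) :=
  (mz2lKer hW ha hb h2).nsmul_mem h k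

theorem mz2lInKer_sub {T T' : W.toAffine.Point} (h : Mz2lInKer v T) (h' : Mz2lInKer v T') :
    Mz2lInKer v (T - T') :=
  (mz2lKer hW ha hb h2).sub_mem h h'

/-- **odd torsion outside the kernel stays away from an integral `2`-torsion point with
nonsingular reduction** -/
theorem mz2l_far_of_two_torsion {r₀ : K} (h₂ : W.toAffine.Nonsingular r₀ 0) (hr₀ : v.Ge r₀ 0)
    (hns : v.Is (3 * r₀ ^ 2 + 2 * a * r₀ + b) 0) {p : ℕ} (hp : Odd p)
    {T : W.toAffine.Point} (hT : p • T = 0) (hT0 : T ≠ 0) (hTk : ¬ v.Lt (xc T) 0) :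
    v.Is (r₀ - xc T) 0 := by
  have hx0 : xc T ≠ 0 := xc_ne_zero_of_odd_torsion hW hp hT hT0
  rcases T with _ | ⟨x, y, hxy⟩
  · exact absurd rfl hT0
  change x ≠ 0 at hx0
  change ¬ v.Lt x 0 at hTk
  show v.Is (r₀ - x) 0
  have hxge : v.Ge x 0 := by
    rcases QVal.lt_or_ge (v := v) x 0 with h | h
    · exact absurd h hTk
    · exact h
  have hdge : v.Ge (r₀ - x) 0 := hr₀.sub hxge
  by_contra hnot
  -- `x ≡ r₀`
  have hxx : v.Gt (x - r₀) 0 := by
    have : v.Gt (r₀ - x) 0 := by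
      rcases hdge with h | h
      · exact Or.inl h
      · by_cases h0 : r₀ - x = 0
        · exact Or.inl h0
        · right
          rcases h.lt_or_eq with hlt | heq
          · exact hlt
          · exact absurd ⟨h0, heq.symm⟩ hnot
    have e : x - r₀ = -(r₀ - x) := by ring
    rw [e]
    exact this.neg
  -- `y ≡ 0`
  have hcurve := hW.eq_of_nonsingular hxy
  have hcurve₂ := hW.eq_of_nonsingular h₂
  have hfac : y ^ 2 = (x - r₀) * (x ^ 2 + x * r₀ + r₀ ^ 2 + a * (x + r₀) + b) := by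
    have h0 : r₀ ^ 3 + a * r₀ ^ 2 + b * r₀ = 0 := by
      rw [← hcurve₂]; ring
    rw [hcurve]
    linear_combination h0
  have hco : v.Ge (x ^ 2 + x * r₀ + r₀ ^ 2 + a * (x + r₀) + b) 0 := by
    have t1 : v.Ge (x ^ 2) 0 := by simpa using hxge.pow 2
    have t2 : v.Ge (x * r₀) 0 := by simpa using hxge.mul hr₀
    have t3 : v.Ge (r₀ ^ 2) 0 := by simpa using hr₀.pow 2
    have t4 : v.Ge (a * (x + r₀)) 0 := by simpa using ha.mul (hxge.add hr₀)
    exact (((t1.add t2).add t3).add t4).add hb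
  have hy2 : v.Gt (y ^ 2) 0 := by
    rw [hfac]
    have := hxx.mul_ge hco
    rwa [add_zero] at this
  have hyy : v.Gt (y - 0) 0 := by
    rw [sub_zero]
    by_cases hy0 : y = 0
    · exact Or.inl hy0
    · right
      rcases hy2 with h | h
      · exact absurd h (pow_ne_zero 2 hy0)
      · rw [v.ord_pow hy0] at h
        push_cast at h
        linarith
  obtain ⟨τ, hτ, hin⟩ := exists_inE_sub_of_close hW ha hb h2 h₂ hxy hr₀ (Or.inr hns) hxx hyy
  -- `p • (T - P₂) = -P₂`
  set P₂ := Point.some r₀ 0 h₂ with hP₂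
  set T' := Point.some x y hxy with hT'
  have h2P : 2 • P₂ = 0 := by rw [two_nsmul]; exact hW.add_self_of_Y_eq_zero h₂
  have hpP₂ : p • P₂ = P₂ := by
    obtain ⟨k, rfl⟩ := hp
    rw [succ_nsmul, mul_nsmul, h2P, smul_zero, zero_add]
  have hker : Mz2lInKer v (p • (T' - P₂)) := mz2lInKer_nsmul hW ha hb h2 ⟨τ, hτ, hin⟩ p
  rw [nsmul_sub, hT, hpP₂, zero_sub] at hker
  have hker' := mz2lInKer_neg hW hker
  rw [neg_neg, hP₂, mz2lInKer_some] at hker'
  exact hker'.not_ge hr₀ le_rfl

end subgroup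

end Fermat.Agent.Mazur2
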