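import Fermat.Agent.Lib.Mazur2.LocP.Good

/-!
# ISOG (P4), part 7: the local datum at `p`, its transport, and the good case

* `Mz2lLocal G A q K` : the four local conditions (`t1_stable`, `t1_small`, `t1_big`, `t1_quot` of
  `Mz2cInput`) on a subgroup `K` of a group `G` with an action of `G_ℚ`, at a place `A` over `q`;
* `mz2l_local_map` : transport along an equivariant additive equivalence;
* `mz2l_good_local` : the kernel of reduction of the Legendre model in the good case.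
-/

set_option autoImplicit false
set_option linter.unusedSectionVars false
set_option linter.unusedVariables false

open WeierstrassCurve WeierstrassCurve.Affine WeierstrassCurve.Affine.Point

namespace Fermat.Agent.Mazur2

open Fermat.Agent.S05Lib Fermat.Agent.S13Lib

local notation "Qb" => AlgebraicClosure ℚ
local notation "GQ" => (AlgebraicClosure ℚ ≃ₐ[ℚ] AlgebraicClosure ℚ)

/-- the four local conditions on a subgroup `K` at a place `A` over `q` -/
def Mz2lLocal (G : Type*) [AddCommGroup G] [SMul GQ G] (A : ValuationSubring Qb) (q : ℕ)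
    (K : AddSubgroup G) : Prop :=
  (∀ σ ∈ A.decompositionSubgroup ℚ, ∀ x ∈ K, σ • x ∈ K) ∧
  Nat.card ↥(K ⊓ mz2cTor G q 1) ≤ q ∧
  (∀ m : ℕ, q ^ m ≤ Nat.card ↥(K ⊓ mz2cTor G q m)) ∧
  (∀ σ ∈ A.inertiaSubgroupIn ℚ, ∀ (m : ℕ) (x : G), x ∈ mz2cTor G q m → σ • x - x ∈ K)

section transport

variable {G T : Type*} [AddCommGroup G] [AddCommGroup T] [SMul GQ G] [SMul GQ T]

/-- the cardinalities of the torsion of a subgroup and of its image agree -/
theorem mz2l_card_map_inf (φ : G ≃+ T) (K : AddSubgroup G) (q m : ℕ) :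
    Nat.card ↥(K.map φ.toAddMonoidHom ⊓ mz2cTor T q m) = Nat.card ↥(K ⊓ mz2cTor G q m) := by
  symm
  refine Nat.card_congr (φ.toEquiv.subtypeEquiv fun a => ?_)
  show a ∈ K ⊓ mz2cTor G q m ↔ φ a ∈ K.map φ.toAddMonoidHom ⊓ mz2cTor T q m
  rw [AddSubgroup.mem_inf, AddSubgroup.mem_inf, mz2l_map_mem_tor]
  have : φ a ∈ K.map φ.toAddMonoidHom ↔ a ∈ K :=
    AddSubgroup.mem_map_iff_mem (f := φ.toAddMonoidHom) φ.injective
  rw [this]

/-- **transport of the local datum** -/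
theorem mz2l_local_map (φ : G ≃+ T) (hφ : ∀ (σ : GQ) (x : G), φ (σ • x) = σ • φ x)
    {A : ValuationSubring Qb} {q : ℕ} {K : AddSubgroup G} (hK : Mz2lLocal G A q K) :
    Mz2lLocal T A q (K.map φ.toAddMonoidHom) := by
  obtain ⟨h1, h2, h3, h4⟩ := hK
  refine ⟨?_, ?_, ?_, ?_⟩
  · rintro σ hσ _ ⟨x, hx, rfl⟩
    exact ⟨σ • x, h1 σ hσ x hx, hφ σ x⟩
  · rw [mz2l_card_map_inf]
    exact h2
  · intro m
    rw [mz2l_card_map_inf]
    exact h3 m
  · intro σ hσ m y hy
    obtain ⟨x, rfl⟩ := φ.surjective y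
    have hx : x ∈ mz2cTor G q m := (mz2l_map_mem_tor φ).mp hy
    refine ⟨σ • x - x, h4 σ hσ m x hx, ?_⟩
    show φ (σ • x - x) = σ • φ x - φ x
    rw [map_sub, hφ]

end transport

section good

variable {A : ValuationSubring Qb} {q : ℕ} {v : QVal Qb}

/-- **the good case**: the kernel of reduction of the Legendre model is a local datum -/
theorem mz2l_good_local (hv : QValFor A q v) (hq : q.Prime) (hA : A.LiesOverPrime q)
    (hq1 : v.ord ((q : ℕ) : Qb) = 1) (hq2 : q ≠ 2)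
    {e r : ℤ} (he : ¬ (q : ℤ) ∣ e) (hr : ¬ (q : ℤ) ∣ r) (her : ¬ (q : ℤ) ∣ e - r)
    (N : AddSubgroup ((legQ e r).toAffine⁄Qb).Point) (hNV : ∀ T ∈ N, q • T = 0)
    (hstab : ∀ σ : GQ, ∀ T ∈ N, σ • T ∈ N) (hNcard : Nat.card ↥N = q)
    (hcyc : ∃ σ ∈ A.inertiaSubgroupIn ℚ, ∃ y ∈ N, σ • y ≠ y) :
    ∃ K : AddSubgroup ((legQ e r).toAffine⁄Qb).Point,
      Mz2lLocal ((legQ e r).toAffine⁄Qb).Point A q K := by
  classical
  have hW := isLeg_legQ e r
  obtain ⟨ha, hb⟩ := legQ_integral hv e r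
  have h2 := hv.is_two hq hq2
  obtain ⟨he0, hr0, her0, hb0, hab⟩ := mz2l_good_nondeg hq he hr her
  -- finiteness of the torsion
  have hcardn : ∀ n : ℕ, Nat.card ↥(mz2cTor ((legQ e r).toAffine⁄Qb).Point q n) = (q ^ n) ^ 2 := by
    intro n
    rw [← Torsion.natCard_torsion hW hb0 hab (pow_pos hq.pos n)]
    exact Nat.card_congr (Equiv.subtypeEquivRight fun x => mem_mz2cTor)
  have hfin : ∀ n : ℕ, Finite ↥(mz2cTor ((legQ e r).toAffine⁄Qb).Point q n) := fun n =>
    Nat.finite_of_card_ne_zero (by rw [hcardn n]; exact pow_ne_zero _ (pow_ne_zero _ hq.ne_zero))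
  have hc1 : Nat.card ↥(mz2cTor ((legQ e r).toAffine⁄Qb).Point q 1) = q ^ 2 := by
    rw [hcardn 1, pow_one]
  have hbot := mz2l_line_ne_bot hq N hNcard
  have htop := mz2l_exists_notMem_line hq N hNcard hc1
  have hkt := mz2l_good_ker_tors hv hq hq1 hq2 he hr her N hNV hstab hbot htop hcyc
  have hdiv := mz2l_good_div hv hq hq1 hq2 he hr her N hNV hstab hbot htop hcyc
  set K := mz2lKer hW ha hb h2 with hK
  have hKN : K ⊓ mz2cTor ((legQ e r).toAffine⁄Qb).Point q 1 = N := by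
    ext x
    rw [AddSubgroup.mem_inf, mem_mz2cTor_one, hK, mem_mz2lKer]
    constructor
    · rintro ⟨h1, h2'⟩
      exact (hkt x h2').mp h1
    · intro hx
      exact ⟨(hkt x (hNV x hx)).mpr hx, hNV x hx⟩
  refine ⟨K, ?_, ?_, ?_, ?_⟩
  · intro σ hσ x hx
    exact mz2lInKer_smul hv hq hA hσ hx
  · rw [hKN, hNcard]
  · apply mz2l_card_tower K
    · intro y hy
      obtain ⟨x, hx, hxy⟩ := hdiv y hy
      exact ⟨x, hx, hxy⟩
    · rw [hKN, hNcard]
    · exact hfin
  · intro σ hσ m x _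
    obtain ⟨τ, hτ, i⟩ := leg_map_sub_inE_good hv hq hq2 hσ he hr her x
    exact ⟨τ, hτ, i⟩

end good

end Fermat.Agent.Mazur2
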