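/-
ISOG / (P4), the NODE case at `p` (helper3).

`E = legQ (ε ^ n) r : y² = x (x - ε ^ n) (x - r)` with `q ∣ ε`, `q ∤ r`, `q ≥ 3` unramified in the
valuation `v` (`ord q = 1`): multiplicative reduction at the place `A` over `q`.  The identity
component `K = {fP = 0}` (`mz2eZero`) is stable under the decomposition group, contains at most `q`
points of order `q`, at least `q ^ m` points of order dividing `q ^ m`, and inertia moves
`q`-power torsion points by elements of `K`.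

* `mz2n_node_local` : the statement (the `t1_*` fields of `Mz2cInput` at a node over `p`).
-/
import Fermat.Agent.Lib.Mazur2.Comp.Leg
import Fermat.Agent.Lib.Mazur2.Comp.Count
import Fermat.Agent.Lib.Mazur2.LocP.Decomp
import Fermat.Agent.Lib.Mazur2.Chain.Group
import Fermat.Agent.Lib.S13.AtPLeg
import Fermat.Agent.Lib.S13.Torsion.Count

set_option autoImplicit false
set_option linter.unusedSectionVars false
set_option linter.unusedVariables false

open WeierstrassCurve WeierstrassCurve.Affine WeierstrassCurve.Affine.Point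

namespace Fermat.Agent.Mazur2

open Fermat.Agent.S05Lib Fermat.Agent.S13Lib

local notation "Qb" => AlgebraicClosure ℚ

/-- an integer divisible by `q` has order at least `ord q` -/
theorem mz2n_ord_int_ge {A : ValuationSubring Qb} {q : ℕ} {v : QVal Qb} (hv : QValFor A q v)
    {ε : ℤ} (hε : (q : ℤ) ∣ ε) (hε0 : ε ≠ 0) :
    v.ord ((q : ℕ) : Qb) ≤ v.ord (ε : Qb) := by
  obtain ⟨m, rfl⟩ := hε
  have hq0 : (q : ℤ) ≠ 0 := left_ne_zero_of_mul hε0
  have hm0 : m ≠ 0 := right_ne_zero_of_mul hε0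
  have hq0' : ((q : ℕ) : Qb) ≠ 0 := by exact_mod_cast hq0
  have hm0' : (m : Qb) ≠ 0 := by exact_mod_cast hm0
  have hm := (hv.ge_int m).resolve_left hm0'
  have e : (((q : ℤ) * m : ℤ) : Qb) = ((q : ℕ) : Qb) * (m : Qb) := by push_cast; rfl
  rw [e, v.ord_mul' hq0' hm0']
  linarith

/-- **the node case at `p`** -/
theorem mz2n_node_local {A : ValuationSubring Qb} {q : ℕ} {v : QVal Qb} (hv : QValFor A q v)
    (hq : q.Prime) (hA : A.LiesOverPrime q) (hq1 : v.ord ((q : ℕ) : Qb) = 1) (hq3 : 3 ≤ q)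
    {ε r : ℤ} (hε : (q : ℤ) ∣ ε) (hε0 : ε ≠ 0) (hr : ¬ (q : ℤ) ∣ r) {n : ℕ} (hn : n ≠ 0) :
    ∃ K : AddSubgroup ((legQ (ε ^ n) r).toAffine⁄Qb).Point,
      (∀ σ ∈ A.decompositionSubgroup ℚ, ∀ x ∈ K, σ • x ∈ K) ∧
      Nat.card ↥(K ⊓ mz2cTor ((legQ (ε ^ n) r).toAffine⁄Qb).Point q 1) ≤ q ∧
      (∀ m : ℕ, q ^ m ≤ Nat.card ↥(K ⊓ mz2cTor ((legQ (ε ^ n) r).toAffine⁄Qb).Point q m)) ∧
      (∀ σ ∈ A.inertiaSubgroupIn ℚ, ∀ (m : ℕ) (x : ((legQ (ε ^ n) r).toAffine⁄Qb).Point),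
        x ∈ mz2cTor ((legQ (ε ^ n) r).toAffine⁄Qb).Point q m → σ • x - x ∈ K) := by
  classical
  have hq2 : q ≠ 2 := by omega
  have hqodd : Odd q := hq.odd_of_ne_two hq2
  have hW := isLeg_legQ (ε ^ n) r
  have hri := hv.is_int hr
  have hε0' : (ε : Qb) ≠ 0 := by exact_mod_cast hε0
  have hεi : v.Is (ε : Qb) (v.ord (ε : Qb)) := QVal.is_ord hε0'
  have hη1 : 1 ≤ v.ord (ε : Qb) := by
    have := mz2n_ord_int_ge hv hε hε0
    linarith
  have hei : v.Is ((ε ^ n : ℤ) : Qb) (n * v.ord (ε : Qb)) := by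
    have := hεi.pow n
    exact_mod_cast this
  have hn1 : (1 : ℚ) ≤ n := by exact_mod_cast Nat.one_le_iff_ne_zero.mpr hn
  have hh1 : 1 ≤ (n : ℚ) * v.ord (ε : Qb) := by nlinarith
  have hh : 0 < (n : ℚ) * v.ord (ε : Qb) := by linarith
  have ha : v.Is (-(((ε ^ n : ℤ) : Qb) + r)) 0 := (hri.add_gt' (hei.gt hh)).neg
  have hb : v.Is (((ε ^ n : ℤ) : Qb) * r) (n * v.ord (ε : Qb)) :=
    (hei.mul hri).congr (add_zero _)
  have h2u : v.Is (2 : Qb) 0 := hv.is_two hq hq2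
  have h4u : v.Is (4 : Qb) 0 := by
    have := h2u.mul h2u
    have e : (2 : Qb) * 2 = 4 := by norm_num
    rw [e] at this
    exact this.congr (add_zero _)
  have hc : v.Is (4 * -(((ε ^ n : ℤ) : Qb) + r)) 0 := (h4u.mul ha).congr (add_zero _)
  have h2 : v.Ge (2 : Qb) 0 := h2u.ge
  have h20 : (2 : Qb) ≠ 0 := two_ne_zero
  have hb0 : ((ε ^ n : ℤ) : Qb) * r ≠ 0 := hb.1
  have hab : (-(((ε ^ n : ℤ) : Qb) + r)) ^ 2 - 4 * (((ε ^ n : ℤ) : Qb) * r) ≠ 0 := by
    have h : (-(((ε ^ n : ℤ) : Qb) + r)) ^ 2 - 4 * (((ε ^ n : ℤ) : Qb) * r)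
        = (((ε ^ n : ℤ) : Qb) - r) ^ 2 := by ring
    rw [h]
    apply pow_ne_zero
    intro h0
    have h1 : v.Is ((r : Qb) - ((ε ^ n : ℤ) : Qb)) 0 := hri.sub_gt (hei.gt hh)
    apply h1.1
    linear_combination -h0
  -- the identity component
  refine ⟨mz2eZero hW hc hb hh h2 h20, ?_, ?_, ?_, ?_⟩
  · -- stability under the decomposition group
    intro σ hσ x hx
    rw [mz2e_mem_zero] at hx ⊢
    have := mz2e_fP_map (v := v) (h := (n : ℚ) * v.ord (ε : Qb))
      (W := (legQ (ε ^ n) r).toAffine⁄Qb) (σ := (σ : Qb →+* Qb))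
      (T := Point.map (W' := (legQ (ε ^ n) r).toAffine) σ.toAlgHom)
      (fun x y hxy => ⟨((legQ (ε ^ n) r).toAffine.baseChange_nonsingular
        σ.toAlgHom.injective ..).mpr hxy, rfl⟩)
      (fun x => mz2l_ord_decomp hv hq hA hσ x) x
    rw [← hx, ← this]
    rfl
  · -- at most `q` points of order `q`
    have hcard : Nat.card {P : ((legQ (ε ^ n) r).toAffine⁄Qb).Point // q • P = 0} = q ^ 2 :=
      Torsion.natCard_torsion hW hb0 hab hq.pos
    have hcardTor : Nat.card ↥(mz2cTor ((legQ (ε ^ n) r).toAffine⁄Qb).Point q 1) = q ^ 2 := by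
      rw [← hcard]
      exact Nat.card_congr (Equiv.subtypeEquivRight fun x => mem_mz2cTor_one)
    have hfin : Finite ↥(mz2cTor ((legQ (ε ^ n) r).toAffine⁄Qb).Point q 1) :=
      Nat.finite_of_card_ne_zero (by rw [hcardTor]; positivity)
    have hfinset : (mz2cTor ((legQ (ε ^ n) r).toAffine⁄Qb).Point q 1 :
        Set ((legQ (ε ^ n) r).toAffine⁄Qb).Point).Finite := Set.toFinite _
    obtain ⟨T, hT, hT0⟩ := mz2k_exists_off_of_le_one hW hb0 hab hh1 hb hqodd hq3 hq1.le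
      hfinset.toFinset (fun T => by
        rw [Set.Finite.mem_toFinset]
        exact mem_mz2cTor_one)
    have hdvd := AddSubgroup.card_addSubgroup_dvd_card
      ((mz2eZero hW hc hb hh h2 h20 ⊓ mz2cTor ((legQ (ε ^ n) r).toAffine⁄Qb).Point q 1).addSubgroupOf
        (mz2cTor ((legQ (ε ^ n) r).toAffine⁄Qb).Point q 1))
    have hHcard : Nat.card ↥((mz2eZero hW hc hb hh h2 h20 ⊓
        mz2cTor ((legQ (ε ^ n) r).toAffine⁄Qb).Point q 1).addSubgroupOf
        (mz2cTor ((legQ (ε ^ n) r).toAffine⁄Qb).Point q 1)) =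
        Nat.card ↥(mz2eZero hW hc hb hh h2 h20 ⊓
          mz2cTor ((legQ (ε ^ n) r).toAffine⁄Qb).Point q 1) :=
      Nat.card_congr (AddSubgroup.addSubgroupOfEquivOfLe inf_le_right).toEquiv
    rw [hcardTor] at hdvd
    obtain ⟨j, hj, hj'⟩ := (Nat.dvd_prime_pow hq).mp hdvd
    rcases Nat.lt_or_ge j 2 with hj2 | hj2
    · rw [← hHcard, hj']
      calc q ^ j ≤ q ^ 1 := Nat.pow_le_pow_right hq.pos (by omega)
        _ = q := pow_one q
    · exfalso
      have hj2' : j = 2 := le_antisymm hj hj2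
      rw [hj2', ← hcardTor] at hj'
      have htop := (AddSubgroup.card_eq_iff_eq_top _).mp hj'
      have hTmem : (⟨T, mem_mz2cTor_one.mpr hT⟩ :
          ↥(mz2cTor ((legQ (ε ^ n) r).toAffine⁄Qb).Point q 1)) ∈
          (mz2eZero hW hc hb hh h2 h20 ⊓
            mz2cTor ((legQ (ε ^ n) r).toAffine⁄Qb).Point q 1).addSubgroupOf
          (mz2cTor ((legQ (ε ^ n) r).toAffine⁄Qb).Point q 1) := by
        rw [htop]
        exact AddSubgroup.mem_top _
      rw [AddSubgroup.mem_addSubgroupOf, AddSubgroup.mem_inf, mz2e_mem_zero] at hTmem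
      exact hT0 hTmem.1
  · -- at least `q ^ m` points of order dividing `q ^ m`
    intro m
    have hcard := Torsion.natCard_torsion hW hb0 hab (pow_pos hq.pos m)
    have := Fermat.Agent.S58.s58l_count hW hc hb hh h2 h20 (hqodd.pow : Odd (q ^ m)) hcard
    refine this.trans (le_of_eq ?_)
    refine Nat.card_congr (Equiv.subtypeEquivRight fun x => ?_)
    rw [AddSubgroup.mem_inf, mz2e_mem_zero, mem_mz2cTor]
    exact and_comm
  · -- inertia acts trivially on the group of components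
    intro σ hσ m x hx
    rw [mem_mz2cTor] at hx
    rw [mz2e_mem_zero]
    have hT := hv.inertiaLike (legQ (ε ^ n) r) hσ
    obtain ⟨γ, hγ⟩ := IsAlgClosed.exists_pow_nat_eq (4 * -(((ε ^ n : ℤ) : Qb) + r)) two_pos
    have hσa : (σ : Qb →+* Qb) (-(((ε ^ n : ℤ) : Qb) + r)) = -(((ε ^ n : ℤ) : Qb) + r) := by
      simp
    have hσγ := mz2e_map_sqrt_of_is_two hW hc h20 hT h2u hσa hγ
    exact mz2e_map_sub_mem hW hc hb hh h2 h20 hT hγ hσγ (hqodd.pow) hx

end Fermat.Agent.Mazur2
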