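import Fermat.Agent.Lib.Mazur2.LocP.Local
import Fermat.Agent.Lib.Mazur2.LocP.Node
import Fermat.Agent.Lib.Mazur2.Frey.Model
import Fermat.Agent.Lib.TW.Local.CycloRamified

/-!
# ISOG (P4), part 9: the local data at the places over `p` for the Frey curve

`mz2l_t1` : for the Frey curve (integral model, `T = E(ℚ̄)`) with a line `N ≤ T[p]` of order `p`
on which `G_ℚ` acts through the mod `p` cyclotomic character, there is a family of subgroups
`T1 A` (`A` a place over `p`) with the four fields `t1_stable`, `t1_small`, `t1_big`, `t1_quot` of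
`Mz2cInput`:

* good case (`p ∤ abc`) : the kernel of reduction of the Legendre model, `LocP/Good.lean`;
* node case (`p ∣ abc`) : the identity component on the Legendre model, `LocP/Node.lean`;

both transported along `S13Lib.frey_form_equiv`.
-/

set_option autoImplicit false
set_option linter.unusedSectionVars false
set_option linter.unusedVariables false
set_option linter.style.haveILetI false

open WeierstrassCurve WeierstrassCurve.Affine WeierstrassCurve.Affine.Point

namespace Fermat.Agent.Mazur2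

open Fermat.Agent.S05Lib Fermat.Agent.S13Lib

local notation "Qb" => AlgebraicClosure ℚ
local notation "GQ" => (AlgebraicClosure ℚ ≃ₐ[ℚ] AlgebraicClosure ℚ)

/-- the mod `p` cyclotomic character is non-trivial on inertia at `p` (exponent form) -/
theorem mz2l_inertia_cyclo (p : ℕ) [hp : Fact p.Prime] (h3 : 3 ≤ p)
    (A : ValuationSubring Qb) (hA : A.LiesOverPrime p) :
    ∃ σ ∈ A.inertiaSubgroupIn ℚ, ((ExtCitation.cycloExp p σ : ℕ) : ZMod p) ≠ 1 := by
  haveI : NeZero p := ⟨hp.out.ne_zero⟩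
  obtain ⟨σ, hσ, hσ1⟩ := Fermat.Agent.TW.tw_exists_inertia_cycloChar_ne_one p h3 A hA
  refine ⟨σ, hσ, fun h => hσ1 ?_⟩
  apply Units.ext
  rw [← ExtCitation.val_cycloChar, ZMod.natCast_zmod_val] at h
  rw [h]
  rfl

/-- an element of a group of prime order `p` moved by `c ≢ 1 mod p` -/
theorem mz2l_nsmul_ne_self {G : Type*} [AddCommGroup G] {p : ℕ} (hp : p.Prime) {x : G}
    (hx : p • x = 0) (hx0 : x ≠ 0) {c : ℕ} (hc : ((c : ℕ) : ZMod p) ≠ 1) : c • x ≠ x := by
  intro h
  apply hc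
  have hord : addOrderOf x = p := by
    haveI : Fact p.Prime := ⟨hp⟩
    exact addOrderOf_eq_prime hx hx0
  have h1 : c • x = 1 • x := by rw [h, one_smul]
  have hmod : c ≡ 1 [MOD p] := by
    rw [← hord]
    exact nsmul_eq_nsmul_iff_modEq.mp h1
  have := (ZMod.natCast_eq_natCast_iff c 1 p).mpr hmod
  simpa using this

variable (P : FreyPackage) [Fact P.p.Prime]

/-- **the local datum at a place over `p`** for the Frey curve -/
theorem mz2l_local_frey
    (N : AddSubgroup ((P.freyCurveInt.map (Int.castRingHom ℚ)).toAffine⁄Qb).Point)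
    (hN : N ≤ mz2cTor ((P.freyCurveInt.map (Int.castRingHom ℚ)).toAffine⁄Qb).Point P.p 1)
    (hcard : Nat.card ↥N = P.p)
    (hcyc : ∀ σ : GQ, ∀ x ∈ N, σ • x = ExtCitation.cycloExp P.p σ • x)
    (A : ValuationSubring Qb) (hA : A.LiesOverPrime P.p) :
    ∃ K : AddSubgroup ((P.freyCurveInt.map (Int.castRingHom ℚ)).toAffine⁄Qb).Point,
      Mz2lLocal ((P.freyCurveInt.map (Int.castRingHom ℚ)).toAffine⁄Qb).Point A P.p K := by
  classical
  have hq : P.p.Prime := P.pp
  have hp5 := P.hp5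
  have hq2 : P.p ≠ 2 := by omega
  have hq3 : 3 ≤ P.p := by omega
  obtain ⟨v, hv, hq1⟩ := exists_qvalFor_normalized A hq hA
  have hform := frey_form_equiv P hq
  rw [← mz2f_frey_eq P] at hform
  obtain ⟨e, r, φ, hφ, hcase⟩ := hform
  rcases hcase with ⟨he, hr, her⟩ | ⟨ε, rfl, hε, hε0, hr⟩
  · -- the good case
    have hNtor : ∀ x ∈ N, P.p • x = 0 := fun x hx => mem_mz2cTor_one.mp (hN hx)
    set NL : AddSubgroup ((legQ e r).toAffine⁄Qb).Point := N.comap φ.toAddMonoidHom with hNL
    have hNLmem : ∀ T, T ∈ NL ↔ φ T ∈ N := fun T => Iff.rfl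
    have hNV : ∀ T ∈ NL, P.p • T = 0 := by
      intro T hT
      have := hNtor _ ((hNLmem T).mp hT)
      rw [← map_nsmul] at this
      exact (map_eq_zero_iff φ φ.injective).mp this
    have hstab : ∀ σ : GQ, ∀ T ∈ NL, σ • T ∈ NL := by
      intro σ T hT
      rw [hNLmem, hφ, hcyc σ _ ((hNLmem T).mp hT)]
      exact N.nsmul_mem ((hNLmem T).mp hT) _
    have hNLcard : Nat.card ↥NL = P.p := by
      rw [← hcard]
      exact Nat.card_congr (φ.toEquiv.subtypeEquiv fun a => hNLmem a)
    have hcycL : ∃ σ ∈ A.inertiaSubgroupIn ℚ, ∃ y ∈ NL, σ • y ≠ y := by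
      obtain ⟨σ, hσ, hne⟩ := mz2l_inertia_cyclo P.p hq3 A hA
      have hbot := mz2l_line_ne_bot hq N hcard
      obtain ⟨⟨x, hx⟩, hx0'⟩ := AddSubgroup.ne_bot_iff_exists_ne_zero.mp hbot
      have hx0 : x ≠ 0 := fun h => hx0' (Subtype.ext h)
      refine ⟨σ, hσ, φ.symm x, ?_, ?_⟩
      · rw [hNLmem, AddEquiv.apply_symm_apply]
        exact hx
      · intro h
        have h' := congrArg φ h
        rw [hφ, AddEquiv.apply_symm_apply, hcyc σ x hx] at h'
        exact mz2l_nsmul_ne_self hq (hNtor x hx) hx0 hne h'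
    obtain ⟨K, hK⟩ := mz2l_good_local hv hq hA hq1 hq2 he hr her NL hNV hstab hNLcard hcycL
    exact ⟨K.map φ.toAddMonoidHom, mz2l_local_map φ hφ hK⟩
  · -- the node case
    obtain ⟨K, hK⟩ := mz2n_node_local hv hq hA hq1 hq3 hε hε0 hr P.hp0
    exact ⟨K.map φ.toAddMonoidHom, mz2l_local_map φ hφ hK⟩

open scoped Classical in
/-- **package (P4)**: the four fields `t1_stable`, `t1_small`, `t1_big`, `t1_quot` of `Mz2cInput`
for the Frey curve -/
theorem mz2l_t1
    (N : AddSubgroup ((P.freyCurveInt.map (Int.castRingHom ℚ)).toAffine⁄Qb).Point)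
    (hN : N ≤ mz2cTor ((P.freyCurveInt.map (Int.castRingHom ℚ)).toAffine⁄Qb).Point P.p 1)
    (hcard : Nat.card ↥N = P.p)
    (hcyc : ∀ σ : GQ, ∀ x ∈ N, σ • x = ExtCitation.cycloExp P.p σ • x) :
    ∃ T1 : ValuationSubring Qb →
        AddSubgroup ((P.freyCurveInt.map (Int.castRingHom ℚ)).toAffine⁄Qb).Point,
      (∀ A : ValuationSubring Qb, A.LiesOverPrime P.p →
        ∀ σ ∈ A.decompositionSubgroup ℚ, ∀ x ∈ T1 A, σ • x ∈ T1 A) ∧
      (∀ A : ValuationSubring Qb, A.LiesOverPrime P.p →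
        Nat.card ↥(T1 A ⊓
          mz2cTor ((P.freyCurveInt.map (Int.castRingHom ℚ)).toAffine⁄Qb).Point P.p 1) ≤ P.p) ∧
      (∀ A : ValuationSubring Qb, A.LiesOverPrime P.p → ∀ n : ℕ,
        P.p ^ n ≤ Nat.card ↥(T1 A ⊓
          mz2cTor ((P.freyCurveInt.map (Int.castRingHom ℚ)).toAffine⁄Qb).Point P.p n)) ∧
      (∀ A : ValuationSubring Qb, A.LiesOverPrime P.p →
        ∀ σ ∈ A.inertiaSubgroupIn ℚ,
          ∀ (n : ℕ) (x : ((P.freyCurveInt.map (Int.castRingHom ℚ)).toAffine⁄Qb).Point),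
            x ∈ mz2cTor ((P.freyCurveInt.map (Int.castRingHom ℚ)).toAffine⁄Qb).Point P.p n →
              σ • x - x ∈ T1 A) := by
  have hex := mz2l_local_frey P N hN hcard hcyc
  refine ⟨fun A => if hA : A.LiesOverPrime P.p then Classical.choose (hex A hA) else ⊥,
    ?_, ?_, ?_, ?_⟩
  · intro A hA
    simp only [dif_pos hA]
    exact (Classical.choose_spec (hex A hA)).1
  · intro A hA
    simp only [dif_pos hA]
    exact (Classical.choose_spec (hex A hA)).2.1
  · intro A hA
    simp only [dif_pos hA]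
    exact (Classical.choose_spec (hex A hA)).2.2.1
  · intro A hA
    simp only [dif_pos hA]
    exact (Classical.choose_spec (hex A hA)).2.2.2

end Fermat.Agent.Mazur2
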